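/-
S26 / endgame P, block QUAD: the NODES (statements only).   Owner: helper86.   FROZEN INTERFACE.

QuadNode  ⇐  TowerNode, FibreNode, DenseNode, EtalePosNode (block DEG)
             + ImageNode, ConsMapNode, FibIsoNode, CartNode, PullNode, EmptyNode, CubeNode, DegNode.
CubeNode  ⇐  `PicTheory K 𝔸.f 𝔸.L` (contract PT of route B: blocks M + Q).
Cartier data = `ECD`, `CD` of `S26/B/Defs.lean`.
-/
import Fermat.Agent.S26.DegSpec
import Fermat.Agent.S26.B.Defs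

set_option autoImplicit false

universe u

open CategoryTheory CategoryTheory.Limits AlgebraicGeometry NeronModelInfra GoodReductionJacobian

namespace Fermat.Agent.S26

variable {K : Type u} [Field K]

/-- the closed immersion `j` is cut out by the effective Cartier data `D`: near every point `y` the
ideal of `j` is generated by a function whose germ at `y` is `D.θ y`. -/
def ECD.Cuts {X : Scheme.{u}} [IsIntegral X] (D : ECD X) {Z : Scheme.{u}} (j : Z ⟶ X) : Prop :=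
  ∀ y : X, ∃ (U : X.affineOpens) (hy : y ∈ U.1) (f : Γ(X, U.1)),
    j.ker.ideal U = Ideal.span {f} ∧ X.presheaf.germ U.1 y hy f = D.θ y

/-- the morphism `x ↦ a - k ι(x)` -/
noncomputable def Curve.tr {𝔸 : AbVar K} (C : Curve 𝔸) (a : 𝔸.KPt) (k : ℤ) : 𝔸.Pt C.c :=
  AbVar.Pt.comp C.c (Category.comp_id _) a * C.ι ^ (-k)

/-- `dim_K 𝒪(p⁻¹ Z)` for `p : Γ ⟶ A` and `j : Z ⟶ A`. -/
noncomputable def dpull {𝔸 : AbVar K} (C : Curve 𝔸) {Z : Scheme.{u}} (j : Z ⟶ 𝔸.A)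
    (p : 𝔸.Pt C.c) : ℕ :=
  dimΓ (pullback.fst p.hom j ≫ C.c)

/-- a point `p ∈ A(Γ)` together with the pull-back of `D` along it -/
structure Pulled {𝔸 : AbVar K} (C : Curve 𝔸) (D : ECD 𝔸.A) where
  p : 𝔸.Pt C.c
  E : ECD C.Γ
  isPull : ECD.IsPull p.hom D E

/-- Effective Cartier data can be pulled back along `φ` as soon as one point is mapped off the
divisor. -/
def PullNode : Prop :=
  ∀ {X' X : Scheme.{u}} [IsIntegral X'] [IsIntegral X] (φ : X' ⟶ X) (D : ECD X) (x' : X'),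
    IsUnit (D.θ (φ x')) → ∃ D' : ECD X', ECD.IsPull φ D D'

/-- The theorem of the cube on the small diagonal of `Γ × Γ × Γ`:
`∑_I (-1)^{|I|} (a - ∑_{i ∈ I} mᵢ ι)^* D` is principal on `Γ`. -/
def CubeNode (𝔸 : AbVar K) : Prop :=
  ∀ (C : Curve 𝔸) (D : ECD 𝔸.A) (a : 𝔸.KPt) (E : ℤ → ECD C.Γ),
    (∀ k, ECD.IsPull (C.tr a k).hom D (E k)) → ∀ m₁ m₂ m₃ : ℤ,
    (([0, m₁ + m₂, m₁ + m₃, m₂ + m₃].map fun k => (E k).toCD).prod *
      (([m₁, m₂, m₃, m₁ + m₂ + m₃].map fun k => (E k).toCD).prod)⁻¹).IsPrincipal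

/-- block DG: the degree of a principal divisor on the curve `Γ` is zero, and the degree of
`p^* D` is `dim_K 𝒪(p⁻¹ Z)`. -/
def DegNode (𝔸 : AbVar K) : Prop :=
  ∀ (C : Curve 𝔸) (D : ECD 𝔸.A) {Z : Scheme.{u}} (j : Z ⟶ 𝔸.A) [IsClosedImmersion j], D.Cuts j →
    ∀ P M : List (Pulled C D),
      ((P.map fun q => q.E.toCD).prod * ((M.map fun q => q.E.toCD).prod)⁻¹).IsPrincipal →
      (P.map fun q => dpull C j q.p).sum = (M.map fun q => dpull C j q.p).sum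

/-- the preimage of `Z` under a constant map to a point off `Z` is empty -/
def EmptyNode (𝔸 : AbVar K) : Prop :=
  ∀ (C : Curve 𝔸) (D : ECD 𝔸.A) {Z : Scheme.{u}} (j : Z ⟶ 𝔸.A) [IsClosedImmersion j], D.Cuts j →
    ∀ a : 𝔸.KPt, IsUnit (D.θ (a.hom (cpt K))) → dpull C j (C.tr a 0) = 0

/-- the fibre of `(x, w) ↦ m ι(x) + τ(w)` over `a` is `{(x, w) | a - m ι(x) = τ(w)}` -/
def FibIsoNode (𝔸 : AbVar K) : Prop :=
  ∀ (C : Curve 𝔸) (B : Based 𝔸) (m : ℤ) (a : 𝔸.KPt),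
    fibDim (C.cons m B).τ.hom a.hom = dpull C B.τ.hom (C.tr a m)

/-- replace `τ : W ⟶ A` by its scheme-theoretic image -/
def ImageNode (𝔸 : AbVar K) : Prop :=
  ∀ B : Based 𝔸, ∃ (B' : Based 𝔸) (π : B.W ⟶ B'.W), IsClosedImmersion B'.τ.hom ∧
    π ≫ B'.w = B.w ∧ π ≫ B'.τ.hom = B.τ.hom ∧ Function.Surjective π

/-- `Γ × W ⟶ Γ × Z` -/
def ConsMapNode (𝔸 : AbVar K) : Prop :=
  ∀ (C : Curve 𝔸) (B B' : Based 𝔸) (π : B.W ⟶ B'.W), π ≫ B'.w = B.w →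
    π ≫ B'.τ.hom = B.τ.hom → Function.Surjective π →
    ∃ ψ : (C.cons 0 B).W ⟶ (C.cons 0 B').W, Dom ψ ∧
      ∀ m : ℤ, (C.cons m B).τ.hom = ψ ≫ (C.cons m B').τ.hom

/-- block CART: a closed integral `Z ⊆ A` with `Γ × Z ⟶ A` generically finite is an effective
Cartier divisor. -/
def CartNode (𝔸 : AbVar K) : Prop :=
  ∀ (C : Curve 𝔸) (B : Based 𝔸), IsClosedImmersion B.τ.hom → 0 < (C.cons 1 B).deg →
    ∃ D : ECD 𝔸.A, D.Cuts B.τ.hom ∧
      ∃ V : 𝔸.A.Opens, (V : Set 𝔸.A).Nonempty ∧ ∀ x ∈ V, IsUnit (D.θ x)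

end Fermat.Agent.S26
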