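/-
S26 / endgame P, block QUAD, leaf Q-CONSMAP (architect helper86, proof helper205):
`id × π : Γ × W ⟶ Γ × Z` is dominant and compatible with the morphisms `m ι + τ`.
-/
import Fermat.Agent.S26.Quad.Nodes

set_option autoImplicit false

universe u

open CategoryTheory CategoryTheory.Limits AlgebraicGeometry NeronModelInfra GoodReductionJacobian

namespace Fermat.Agent.S26.Quad

variable {K : Type u} [Field K]

/-- a surjective morphism of integral schemes maps the generic point to the generic point -/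
theorem consMap_dom_of_surjective {X Y : Scheme.{u}} [IsIntegral X] [IsIntegral Y] (φ : Y ⟶ X)
    (h : Function.Surjective φ) : Dom φ := by
  have h1 : IsGenericPoint (genericPoint Y) Set.univ := genericPoint_spec Y
  have h2 := h1.image φ.continuous
  rw [Set.image_univ, h.range_eq, closure_univ] at h2
  exact h2.eq (genericPoint_spec X)

/-- Q-CONSMAP (final file `Quad/ConsMap.lean`) -/
theorem consMapNode (𝔸 : AbVar K) : ConsMapNode 𝔸 := by
  intro C B B' π hπw hπτ hπs
  have e₁ : C.c = 𝟙 _ ≫ C.c := (Category.id_comp _).symm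
  have e₂ : B.w = π ≫ B'.w := hπw.symm
  let ψ : pullback C.c B.w ⟶ pullback C.c B'.w :=
    pullback.map C.c B.w C.c B'.w (𝟙 _) π (𝟙 _) ((Category.comp_id _).trans e₁)
      ((Category.comp_id _).trans e₂)
  have hsurj : Surjective ψ :=
    MorphismProperty.pullbackMap (P := @Surjective) (inferInstance : Surjective (𝟙 C.Γ))
      (⟨hπs⟩ : Surjective π) e₁ e₂
  have hfst : ψ ≫ pullback.fst C.c B'.w = pullback.fst C.c B.w :=
    (pullback.lift_fst _ _ _).trans (Category.comp_id _)
  have hsnd : ψ ≫ pullback.snd C.c B'.w = pullback.snd C.c B.w ≫ π :=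
    pullback.lift_snd _ _ _
  have hψ : ψ ≫ (pullback.fst C.c B'.w ≫ C.c) = pullback.fst C.c B.w ≫ C.c := by
    rw [← Category.assoc, hfst]
  refine ⟨ψ, consMap_dom_of_surjective (X := (C.cons 0 B').W) (Y := (C.cons 0 B).W) ψ hsurj.surj,
    fun m => ?_⟩
  have key : (C.cons m B).τ = AbVar.Pt.comp ψ hψ (C.cons m B').τ := by
    show (AbVar.Pt.comp (pullback.fst C.c B.w) rfl C.ι) ^ m *
        AbVar.Pt.comp (pullback.snd C.c B.w) pullback.condition.symm B.τ =
      AbVar.Pt.comp ψ hψ ((AbVar.Pt.comp (pullback.fst C.c B'.w) rfl C.ι) ^ m *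
        AbVar.Pt.comp (pullback.snd C.c B'.w) pullback.condition.symm B'.τ)
    rw [map_mul, map_zpow]
    congr 1
    · congr 1
      apply AbVar.Pt.ext
      rw [AbVar.Pt.comp_hom, AbVar.Pt.comp_hom, AbVar.Pt.comp_hom, ← Category.assoc, hfst]
    · apply AbVar.Pt.ext
      rw [AbVar.Pt.comp_hom, AbVar.Pt.comp_hom, AbVar.Pt.comp_hom, ← Category.assoc, hsnd,
        Category.assoc, hπτ]
  rw [key]
  rfl

end Fermat.Agent.S26.Quad
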