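/-
S26 / endgame P, block QUAD, leaf Q-CUBE: `CubeNode` from the contract PT (`PicTheory`).
Purely formal: translate `D` by `a`, apply the cube identity of `PT` on the curve `Γ` to the three
points `-m₁ ι, -m₂ ι, -m₃ ι ∈ A(Γ)`, and read the classes through `cl_pull`.
-/
import Fermat.Agent.S26.Quad.Nodes

set_option autoImplicit false

universe u

open CategoryTheory CategoryTheory.Limits AlgebraicGeometry NeronModelInfra GoodReductionJacobian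

namespace Fermat.Agent.S26.Quad

variable {K : Type u} [Field K]

open AbVar

/-- translation by `a` -/
noncomputable def cubeTrans (𝔸 : AbVar K) (a : 𝔸.KPt) : 𝔸.A ⟶ 𝔸.A :=
  (𝔸.idPt * Pt.comp 𝔸.f (Category.comp_id _) a).hom

theorem cube_hom_trans {𝔸 : AbVar K} {T : Scheme.{u}} {t : T ⟶ SK K} (s : 𝔸.Pt t) (a : 𝔸.KPt) :
    s.hom ≫ cubeTrans 𝔸 a = (s * Pt.comp t (Category.comp_id _) a).hom := by
  have h1 : Pt.comp s.hom s.hom_f 𝔸.idPt = s := by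
    apply Pt.ext
    rw [Pt.comp_hom]
    exact Category.comp_id _
  have h2 : Pt.comp s.hom s.hom_f (Pt.comp 𝔸.f (Category.comp_id _) a) =
      Pt.comp t (Category.comp_id _) a := by
    apply Pt.ext
    rw [Pt.comp_hom, Pt.comp_hom, Pt.comp_hom, ← Category.assoc, s.hom_f]
  have h3 := map_mul (Pt.comp s.hom s.hom_f) 𝔸.idPt (Pt.comp 𝔸.f (Category.comp_id _) a)
  rw [h1, h2] at h3
  rw [← h3, Pt.comp_hom]
  rfl

/-- Q-CUBE -/
theorem cubeNode_of_picTheory (𝔸 : AbVar K) (PT : PicTheory K 𝔸.f 𝔸.L) : CubeNode 𝔸 := by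
  intro C D a E hE m₁ m₂ m₃
  set ξ : PT.Pic 𝔸.A := PT.cl D.toCD with hξ
  have hcl : ∀ k, PT.pull (C.tr a k).hom ξ = PT.cl (E k).toCD :=
    fun k => PT.cl_pull _ D (E k) (hE k)
  set ξ' : PT.Pic 𝔸.A := PT.pull (cubeTrans 𝔸 a) ξ with hξ'
  have hpull : ∀ k : ℤ, PT.pull (C.ι ^ (-k)).hom ξ' = PT.cl (E k).toCD := by
    intro k
    rw [hξ', ← PT.pull_comp, cube_hom_trans, ← hcl k, mul_comm]
    rfl
  have hγ : C.ε.1 ≫ (C.ι ^ (-m₁)).hom = (𝔸.L.one (𝟙 (SK K))).1 := by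
    have h := map_zpow (Pt.comp C.ε.1 C.ε.2) C.ι (-m₁)
    rw [C.ι_ε, one_zpow] at h
    exact congrArg Pt.hom h
  have hcube := PT.cube C.c C.ε (C.ι ^ (-m₁)) hγ ξ' C.c ⟨𝟙 _, Category.id_comp _⟩
    (C.ι ^ (-m₂)) (C.ι ^ (-m₃))
  have hcp : compPt K 𝔸.f (c := C.c) (t := C.c) ⟨𝟙 _, Category.id_comp _⟩ (C.ι ^ (-m₁)) =
      C.ι ^ (-m₁) := Subtype.ext (Category.id_comp _)
  rw [hcp] at hcube
  have hcube' : PT.pull (C.ι ^ (-m₁) * C.ι ^ (-m₂) * C.ι ^ (-m₃)).hom ξ'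
      - PT.pull (C.ι ^ (-m₁) * C.ι ^ (-m₂)).hom ξ'
      - PT.pull (C.ι ^ (-m₁) * C.ι ^ (-m₃)).hom ξ' - PT.pull (C.ι ^ (-m₂) * C.ι ^ (-m₃)).hom ξ'
      + PT.pull (C.ι ^ (-m₁)).hom ξ' + PT.pull (C.ι ^ (-m₂)).hom ξ'
      + PT.pull (C.ι ^ (-m₃)).hom ξ' = 0 := hcube
  rw [← zpow_add, ← zpow_add, ← zpow_add, ← zpow_add, ← neg_add, ← neg_add, ← neg_add, ← neg_add,
    hpull, hpull, hpull, hpull, hpull, hpull, hpull] at hcube'
  have h0 : PT.cl (E 0).toCD = 0 := by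
    rw [← hcl 0]
    have h1 : (C.tr a 0).hom = C.c ≫ a.hom := by
      have : C.tr a 0 = Pt.comp C.c (Category.comp_id _) a := by
        rw [Curve.tr, neg_zero, zpow_zero, mul_one]
      rw [this, Pt.comp_hom]
    rw [h1, PT.pull_comp, PT.pic_point (PT.pull a.hom ξ), map_zero]
  apply PT.isPrincipal_of_cl_eq_zero
  rw [PT.cl_mul, PT.cl_inv]
  simp only [List.map_cons, List.map_nil, List.prod_cons, List.prod_nil, PT.cl_mul]
  rw [h0]
  refine Eq.trans ?_ (neg_eq_zero.mpr hcube')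
  abel

end Fermat.Agent.S26.Quad
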