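/-
S26 / endgame P, block QUAD, leaf Q-EMPTY: the preimage of `Z` under a constant map to a point off `Z`
is empty.
-/
import Fermat.Agent.S26.Quad.Nodes

set_option autoImplicit false

universe u

open CategoryTheory CategoryTheory.Limits AlgebraicGeometry NeronModelInfra GoodReductionJacobian

namespace Fermat.Agent.S26.Quad

variable {K : Type u} [Field K]

/-- a local equation of a closed subscheme is not a unit at a point of the subscheme -/
theorem empty_not_isUnit_of_cuts {X : Scheme.{u}} [IsIntegral X] (D : ECD X) {Z : Scheme.{u}}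
    (j : Z ⟶ X) [IsClosedImmersion j] (hcut : D.Cuts j) (z : Z) : ¬ IsUnit (D.θ (j z)) := by
  intro hu
  obtain ⟨U, hy, f, hker, hgerm⟩ := hcut (j z)
  have hf : f ∈ j.ker.ideal U := by
    rw [hker]
    exact Ideal.mem_span_singleton_self f
  rw [Scheme.Hom.ker_apply, RingHom.mem_ker] at hf
  have h1 : (j.stalkMap z).hom (X.presheaf.germ U.1 (j z) hy f) = 0 := by
    have h2 := Scheme.Hom.germ_stalkMap_apply j U.1 z hy f
    rw [show (j.app U.1) f = 0 from hf, map_zero] at h2
    exact h2
  rw [hgerm] at h1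
  have h3 := hu.map (j.stalkMap z).hom
  rw [h1] at h3
  exact not_isUnit_zero h3

theorem empty_subsingleton_SK : Subsingleton (SK K) :=
  inferInstanceAs (Subsingleton (PrimeSpectrum K))

theorem empty_tr_zero_hom {𝔸 : AbVar K} (C : Curve 𝔸) (a : 𝔸.KPt) :
    (C.tr a 0).hom = C.c ≫ a.hom := by
  have h : C.tr a 0 = AbVar.Pt.comp C.c (Category.comp_id _) a := by
    rw [Curve.tr, neg_zero, zpow_zero, mul_one]
  rw [h, AbVar.Pt.comp_hom]

theorem empty_dimΓ_eq_zero {T : Scheme.{u}} [IsEmpty T] (t : T ⟶ SK K) : dimΓ t = 0 := by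
  unfold dimΓ
  let _ := (algΓ t).toAlgebra.toModule
  exact Module.finrank_zero_of_subsingleton

/-- Q-EMPTY -/
theorem emptyNode (𝔸 : AbVar K) : EmptyNode 𝔸 := by
  intro C D Z j _ hcut a hu
  have hemp : IsEmpty ↑(pullback (C.tr a 0).hom j) := by
    refine ⟨fun P => ?_⟩
    have h1 : (C.tr a 0).hom (pullback.fst (C.tr a 0).hom j P) =
        j (pullback.snd (C.tr a 0).hom j P) := by
      rw [← Scheme.Hom.comp_apply, ← Scheme.Hom.comp_apply, pullback.condition]
    have h0 : ∀ x : C.Γ, (C.tr a 0).hom x = a.hom (cpt K) := by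
      intro x
      rw [empty_tr_zero_hom, Scheme.Hom.comp_apply, empty_subsingleton_SK.elim (C.c x) (cpt K)]
    rw [h0] at h1
    rw [h1] at hu
    exact empty_not_isUnit_of_cuts D j hcut _ hu
  exact empty_dimΓ_eq_zero _

end Fermat.Agent.S26.Quad
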