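/-
S26 / endgame P, block QUAD, leaf Q-FIBISO:
the fibre of `(x, w) ↦ m ι(x) + τ(w)` over `a` is `{(x, w) | a - m ι(x) = τ(w)}`.
-/
import Fermat.Agent.S26.Quad.Nodes

set_option autoImplicit false

universe u

open CategoryTheory CategoryTheory.Limits AlgebraicGeometry NeronModelInfra GoodReductionJacobian

namespace Fermat.Agent.S26.Quad

open AbVar

variable {K : Type u} [Field K]

/-- `dim_K Γ(T, 𝒪)` only depends on the isomorphism class of `T` over `Spec K`. -/
theorem fibIso_dimΓ_eq_of_iso {T T' : Scheme.{u}} (e : T ≅ T') (t : T ⟶ SK K) (t' : T' ⟶ SK K)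
    (h : e.hom ≫ t' = t) : dimΓ t = dimΓ t' := by
  subst h
  unfold dimΓ
  let i1 : Algebra K Γ(T, ⊤) := (algΓ (e.hom ≫ t')).toAlgebra
  let i2 : Algebra K Γ(T', ⊤) := (algΓ t').toAlgebra
  have h1 : e.inv.appTop ≫ e.hom.appTop = 𝟙 _ := by
    rw [← Scheme.Hom.comp_appTop, e.hom_inv_id, Scheme.Hom.id_appTop]
  have h2 : e.hom.appTop ≫ e.inv.appTop = 𝟙 _ := by
    rw [← Scheme.Hom.comp_appTop, e.inv_hom_id, Scheme.Hom.id_appTop]
  let i : Γ(T', ⊤) ≅ Γ(T, ⊤) := ⟨e.hom.appTop, e.inv.appTop, h2, h1⟩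
  let r : Γ(T', ⊤) ≃+* Γ(T, ⊤) := i.commRingCatIsoToRingEquiv
  have hr : ∀ z, r z = e.hom.appTop.hom z := fun _ => rfl
  have hk : ∀ k : K, r (algΓ t' k) = algΓ (e.hom ≫ t') k := by
    intro k
    rw [hr]
    simp only [algΓ, RingHom.comp_apply, Scheme.Hom.comp_appTop, CommRingCat.hom_comp]
  let l : Γ(T', ⊤) ≃ₗ[K] Γ(T, ⊤) :=
    { r with
      map_smul' := by
        intro k z
        show r (algΓ t' k * z) = algΓ (e.hom ≫ t') k * r z
        rw [map_mul, hk] }
  exact l.finrank_eq.symm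

/-- the point `(x, w) ↦ m ι(x) + τ(w)` of `A(Γ × W)` -/
noncomputable def fibIsoPt {𝔸 : AbVar K} (C : Curve 𝔸) (B : Based 𝔸) (m : ℤ) :
    𝔸.Pt (pullback.fst C.c B.w ≫ C.c) :=
  (Pt.comp (pullback.fst C.c B.w) rfl C.ι) ^ m *
    Pt.comp (pullback.snd C.c B.w) pullback.condition.symm B.τ

/-- the functor-of-points form of the statement -/
theorem fibIso_key {𝔸 : AbVar K} (C : Curve 𝔸) (B : Based 𝔸) (m : ℤ) (a : 𝔸.KPt)
    {T : Scheme.{u}} (x : T ⟶ C.Γ) (w : T ⟶ B.W) (h : x ≫ C.c = w ≫ B.w) :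
    pullback.lift x w h ≫ (fibIsoPt C B m).hom = (x ≫ C.c) ≫ a.hom ↔
      x ≫ (C.tr a m).hom = w ≫ B.τ.hom := by
  set X1 : 𝔸.Pt (x ≫ C.c) := Pt.comp x rfl C.ι with hX1
  set W1 : 𝔸.Pt (x ≫ C.c) := Pt.comp w h.symm B.τ with hW1
  set A1 : 𝔸.Pt (x ≫ C.c) := Pt.comp (x ≫ C.c) (Category.comp_id _) a with hA1
  have hl : pullback.lift x w h ≫ pullback.fst C.c B.w ≫ C.c = x ≫ C.c := by
    rw [pullback.lift_fst_assoc]
  have h1 : Pt.comp (pullback.lift x w h) hl (fibIsoPt C B m) = X1 ^ m * W1 := by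
    unfold fibIsoPt
    rw [map_mul, map_zpow]
    congr 1
    · congr 1
      apply Pt.ext
      simp only [hX1, Pt.comp_hom]
      rw [pullback.lift_fst_assoc]
    · apply Pt.ext
      simp only [hW1, Pt.comp_hom]
      rw [pullback.lift_snd_assoc]
  have h1' : pullback.lift x w h ≫ (fibIsoPt C B m).hom = (X1 ^ m * W1).hom := by
    rw [← h1, Pt.comp_hom]
  have h2 : Pt.comp x rfl (C.tr a m) = A1 * X1 ^ (-m) := by
    unfold Curve.tr
    rw [map_mul, map_zpow]
    congr 1
  have h2' : x ≫ (C.tr a m).hom = (A1 * X1 ^ (-m)).hom := by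
    rw [← h2, Pt.comp_hom]
  have h3 : (x ≫ C.c) ≫ a.hom = A1.hom := rfl
  have h4 : w ≫ B.τ.hom = W1.hom := rfl
  rw [h1', h2', h3, h4]
  constructor
  · intro hh
    have hh' : X1 ^ m * W1 = A1 := Pt.ext hh
    rw [← hh', zpow_neg, mul_comm (X1 ^ m) W1, mul_inv_cancel_right]
  · intro hh
    have hh' : A1 * X1 ^ (-m) = W1 := Pt.ext hh
    rw [← hh', zpow_neg, mul_comm A1, mul_inv_cancel_left]

theorem fibIso_main {𝔸 : AbVar K} (C : Curve 𝔸) (B : Based 𝔸) (m : ℤ) (a : 𝔸.KPt) :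
    dimΓ (pullback.snd (fibIsoPt C B m).hom a.hom) =
      dimΓ (pullback.fst (C.tr a m).hom B.τ.hom ≫ C.c) := by
  set φ : pullback C.c B.w ⟶ 𝔸.A := (fibIsoPt C B m).hom with hφ
  set p : C.Γ ⟶ 𝔸.A := (C.tr a m).hom with hp
  have hφf : φ ≫ 𝔸.f = pullback.fst C.c B.w ≫ C.c := (fibIsoPt C B m).hom_f
  -- the structure map of `F`
  have hs : pullback.snd φ a.hom = pullback.fst φ a.hom ≫ pullback.fst C.c B.w ≫ C.c := by
    have := congrArg (· ≫ 𝔸.f) (pullback.condition (f := φ) (g := a.hom))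
    simp only [Category.assoc] at this
    rw [hφf, a.hom_f, Category.comp_id] at this
    exact this.symm
  have hc : (pullback.fst φ a.hom ≫ pullback.fst C.c B.w) ≫ C.c =
      (pullback.fst φ a.hom ≫ pullback.snd C.c B.w) ≫ B.w := by
    rw [Category.assoc, Category.assoc, pullback.condition]
  have hlift : pullback.lift (pullback.fst φ a.hom ≫ pullback.fst C.c B.w)
      (pullback.fst φ a.hom ≫ pullback.snd C.c B.w) hc = pullback.fst φ a.hom := by
    apply pullback.hom_ext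
    · rw [pullback.lift_fst]
    · rw [pullback.lift_snd]
  have h1 : (pullback.fst φ a.hom ≫ pullback.fst C.c B.w) ≫ p =
      (pullback.fst φ a.hom ≫ pullback.snd C.c B.w) ≫ B.τ.hom := by
    refine (fibIso_key C B m a _ _ hc).mp ?_
    rw [hlift, Category.assoc (pullback.fst φ a.hom), ← hs]
    exact pullback.condition
  have hc' : pullback.fst p B.τ.hom ≫ C.c = pullback.snd p B.τ.hom ≫ B.w := by
    have := congrArg (· ≫ 𝔸.f) (pullback.condition (f := p) (g := B.τ.hom))
    simp only [Category.assoc] at this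
    rw [B.τ.hom_f, hp, (C.tr a m).hom_f] at this
    exact this
  have h2 : pullback.lift (pullback.fst p B.τ.hom) (pullback.snd p B.τ.hom) hc' ≫ φ =
      (pullback.fst p B.τ.hom ≫ C.c) ≫ a.hom :=
    (fibIso_key C B m a _ _ hc').mpr pullback.condition
  let e : pullback φ a.hom ≅ pullback p B.τ.hom :=
    { hom := pullback.lift _ _ h1
      inv := pullback.lift _ _ h2
      hom_inv_id := by
        apply pullback.hom_ext
        · apply pullback.hom_ext
          · simp only [Category.assoc, pullback.lift_fst, Category.id_comp]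
          · simp only [Category.assoc, pullback.lift_fst, pullback.lift_snd, Category.id_comp]
        · simp only [Category.assoc, pullback.lift_snd, pullback.lift_fst_assoc, Category.id_comp]
          exact hs.symm
      inv_hom_id := by
        apply pullback.hom_ext
        · simp only [Category.assoc, pullback.lift_fst, pullback.lift_fst_assoc, Category.id_comp]
        · simp only [Category.assoc, pullback.lift_snd, pullback.lift_fst_assoc,
            Category.id_comp] }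
  refine fibIso_dimΓ_eq_of_iso e _ _ ?_
  show pullback.lift _ _ h1 ≫ pullback.fst p B.τ.hom ≫ C.c = _
  rw [pullback.lift_fst_assoc, hs, Category.assoc]

/-- Q-FIBISO -/
theorem fibIsoNode (𝔸 : AbVar K) : FibIsoNode 𝔸 :=
  fun C B m a => fibIso_main C B m a

end Fermat.Agent.S26.Quad
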