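/-
S26 / endgame P, block QUAD, node Q-IMAGE: replace `τ : W ⟶ A` by its scheme-theoretic image.
Proof: helper199.
-/
import Fermat.Agent.S26.Quad.Nodes

set_option autoImplicit false

universe u

open CategoryTheory CategoryTheory.Limits AlgebraicGeometry NeronModelInfra GoodReductionJacobian

namespace Fermat.Agent.S26.Quad

variable {K : Type u} [Field K]

/-- the scheme-theoretic image of a reduced scheme is reduced -/
theorem image_isReduced {X Y : Scheme.{u}} (f : X ⟶ Y) [QuasiCompact f] [IsReduced X] :
    IsReduced f.image :=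
  have (U : f.ker.subschemeCover.openCover.I₀) :
      IsReduced (f.ker.subschemeCover.openCover.X U) := by
    change Y.affineOpens at U
    have h : _root_.IsReduced (Γ(Y, U.1) ⧸ f.ker.ideal U) :=
      isReduced_of_injective
        (Ideal.Quotient.lift _ (f.app U.1).hom (Scheme.IdealSheafData.ideal_ofIdeals_le _ _))
        (RingHom.lift_injective_of_ker_le_ideal _ _ (by simp))
    show IsReduced (Spec (.of (Γ(Y, U.1) ⧸ f.ker.ideal U)))
    infer_instance
  .of_openCover _ f.ker.subschemeCover.openCover

/-- the scheme-theoretic image of an integral scheme is integral -/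
theorem image_isIntegral {X Y : Scheme.{u}} (f : X ⟶ Y) [QuasiCompact f] [IsIntegral X] :
    IsIntegral f.image :=
  have : IsReduced f.image := image_isReduced f
  have : IrreducibleSpace f.image := by
    rw [irreducibleSpace_def]
    convert!
      ((IrreducibleSpace.isIrreducible_univ X).image _
          f.toImage.continuous.continuousOn).closure
    simpa using f.toImage.denseRange.closure_range.symm
  isIntegral_of_irreducibleSpace_of_isReduced _

/-- Q-IMAGE -/
theorem imageNode (𝔸 : AbVar K) : ImageNode 𝔸 := by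
  intro B
  have hfw : B.τ.hom ≫ 𝔸.f = B.w := B.τ.hom_f
  have : IsProper (B.τ.hom ≫ 𝔸.f) := by rw [hfw]; infer_instance
  have : IsProper B.τ.hom := IsProper.of_comp B.τ.hom 𝔸.f
  have : IsIntegral B.τ.hom.image := image_isIntegral B.τ.hom
  have : IsProper (B.τ.hom.toImage ≫ B.τ.hom.imageι) := by
    rw [Scheme.Hom.toImage_imageι]; infer_instance
  have : IsProper B.τ.hom.toImage := IsProper.of_comp B.τ.hom.toImage B.τ.hom.imageι
  let B' : Based 𝔸 :=
    { W := B.τ.hom.image
      w := B.τ.hom.imageι ≫ 𝔸.f
      pt := ⟨B.pt.1 ≫ B.τ.hom.toImage, by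
        rw [Category.assoc, Scheme.Hom.toImage_imageι_assoc, hfw]
        exact B.pt.2⟩
      τ := AbVar.Pt.mk B.τ.hom.imageι rfl }
  refine ⟨B', B.τ.hom.toImage, ?_, ?_, B.τ.hom.toImage_imageι, ?_⟩
  · show IsClosedImmersion B.τ.hom.imageι
    infer_instance
  · show B.τ.hom.toImage ≫ B.τ.hom.imageι ≫ 𝔸.f = B.w
    rw [Scheme.Hom.toImage_imageι_assoc, hfw]
  · rw [← Set.range_eq_univ, ← B.τ.hom.toImage.denseRange.closure_range]
    exact (B.τ.hom.toImage.isClosedMap.isClosed_range.closure_eq).symm

end Fermat.Agent.S26.Quad
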