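/-
S26 / endgame P, block QUAD, leaf Q-PULL: effective Cartier data can be pulled back along a morphism
of integral schemes as soon as one point is mapped off the divisor.
-/
import Fermat.Agent.S26.Quad.Nodes
import Fermat.Agent.S26.M.Rep

set_option autoImplicit false

universe u

open CategoryTheory CategoryTheory.Limits AlgebraicGeometry NeronModelInfra GoodReductionJacobian

namespace Fermat.Agent.S26.Quad

/-- a local equation of `D` at `x`, as a section over a neighbourhood `W` of `x`, which is a local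
equation of `D` at all points of `W`. -/
theorem Pull_local {X : Scheme.{u}} [IsIntegral X] (D : ECD X) (x : X) :
    ∃ (W : X.Opens) (hx : x ∈ W) (s : Γ(X, W)), X.presheaf.germ W x hx s = D.θ x ∧
      ∀ (y : X) (hy : y ∈ W), ∃ a : X.presheaf.stalk y, IsUnit a ∧
        X.presheaf.germ W y hy s = a * D.θ y := by
  obtain ⟨U, hxU, hU⟩ := D.coh x
  obtain ⟨V, hxV, s₀, hs₀⟩ := M.exists_section_of_stalk x (D.θ x)
  have hg : X.presheaf.germ (V ⊓ U) x ⟨hxV, hxU⟩
      (X.presheaf.map (homOfLE (inf_le_left : V ⊓ U ≤ V)).op s₀) = D.θ x := by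
    rw [TopCat.Presheaf.germ_res_apply, hs₀]
  refine ⟨V ⊓ U, ⟨hxV, hxU⟩, X.presheaf.map (homOfLE inf_le_left).op s₀, hg, ?_⟩
  intro y hy
  obtain ⟨a, ha, hay⟩ := hU y hy.2
  refine ⟨a, ha, M.toFF_injective y ?_⟩
  have h1 := M.Rep.of_germ (X.presheaf.map (homOfLE (inf_le_left : V ⊓ U ≤ V)).op s₀)
    (z := x) ⟨hxV, hxU⟩ y hy
  rw [h1, hg, map_mul, hay, div_mul_cancel₀]
  exact D.toCD.ne y

/-- the pulled-back local equations -/
noncomputable def pullθ {X' X : Scheme.{u}} [IsIntegral X] (φ : X' ⟶ X) (D : ECD X) (x' : X') :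
    X'.presheaf.stalk x' :=
  (φ.stalkMap x').hom (D.θ (φ x'))

/-- the pulled-back local equations are locally given by one section, up to units. -/
theorem Pull_local' {X' X : Scheme.{u}} [IsIntegral X] (φ : X' ⟶ X) (D : ECD X) (x' : X') :
    ∃ (W' : X'.Opens) (hx : x' ∈ W') (s' : Γ(X', W')),
      X'.presheaf.germ W' x' hx s' = pullθ φ D x' ∧
      ∀ (y' : X') (hy : y' ∈ W'), ∃ a : X'.presheaf.stalk y', IsUnit a ∧
        X'.presheaf.germ W' y' hy s' = a * pullθ φ D y' := by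
  obtain ⟨W, hx, s, hs, H⟩ := Pull_local D (φ x')
  refine ⟨φ ⁻¹ᵁ W, hx, φ.app W s, ?_, ?_⟩
  · rw [pullθ, ← hs]
    exact (Scheme.Hom.germ_stalkMap_apply φ W x' hx s).symm
  · intro y' hy
    obtain ⟨a, ha, hay⟩ := H (φ y') hy
    refine ⟨(φ.stalkMap y').hom a, ha.map _, ?_⟩
    rw [pullθ, ← map_mul, ← hay]
    exact (Scheme.Hom.germ_stalkMap_apply φ W y' hy s).symm

/-- vanishing of the pulled-back local equation propagates inside a good neighbourhood. -/
theorem Pull_zero_of_zero {X' : Scheme.{u}} [IsIntegral X'] {W' : X'.Opens} (s' : Γ(X', W'))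
    (θ' : ∀ x' : X', X'.presheaf.stalk x')
    (H : ∀ (y' : X') (hy : y' ∈ W'), ∃ a : X'.presheaf.stalk y', IsUnit a ∧
        X'.presheaf.germ W' y' hy s' = a * θ' y')
    {y' z' : X'} (hy : y' ∈ W') (hz : z' ∈ W') (h0 : θ' y' = 0) : θ' z' = 0 := by
  obtain ⟨a, -, hay⟩ := H y' hy
  obtain ⟨b, hb, hbz⟩ := H z' hz
  have h1 := M.Rep.of_germ s' hy z' hz
  rw [hay, h0, mul_zero, map_zero] at h1
  have h2 : X'.presheaf.germ W' z' hz s' = 0 :=
    M.toFF_injective z' (h1.trans (map_zero _).symm)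
  rw [hbz] at h2
  exact (hb.mul_right_eq_zero).1 h2

/-- the pulled-back local equations do not vanish. -/
theorem Pull_ne {X' X : Scheme.{u}} [IsIntegral X'] [IsIntegral X] (φ : X' ⟶ X) (D : ECD X)
    (x₀ : X') (hu : IsUnit (D.θ (φ x₀))) (x' : X') : pullθ φ D x' ≠ 0 := by
  intro h0
  obtain ⟨W, hx, s, -, H⟩ := Pull_local' φ D x'
  obtain ⟨W₀, hx₀, s₀, -, H₀⟩ := Pull_local' φ D x₀
  obtain ⟨η, hη, hη₀⟩ := M.exists_mem_inf hx hx₀
  have h1 : pullθ φ D η = 0 := Pull_zero_of_zero s (pullθ φ D) H hx hη h0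
  have h2 : pullθ φ D x₀ = 0 := Pull_zero_of_zero s₀ (pullθ φ D) H₀ hη₀ hx₀ h1
  have h3 : IsUnit (pullθ φ D x₀) := hu.map _
  rw [h2] at h3
  exact not_isUnit_zero h3

/-- Q-PULL -/
theorem pullNode : PullNode.{u} := by
  intro X' X _ _ φ D x₀ hu
  refine ⟨⟨pullθ φ D, Pull_ne φ D x₀ hu, ?_⟩, fun _ => rfl⟩
  intro x'
  obtain ⟨W, hx, s, hs, H⟩ := Pull_local' φ D x'
  refine ⟨W, hx, fun y' hy => ?_⟩
  obtain ⟨a, ha, hay⟩ := H y' hy
  refine ⟨a, ha, ?_⟩
  have h1 := M.Rep.of_germ s hx y' hy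
  rw [hs, hay, map_mul] at h1
  rw [← h1, mul_div_assoc, div_self, mul_one]
  intro h0
  exact Pull_ne φ D x₀ hu y' (M.toFF_injective y' (h0.trans (map_zero _).symm))

end Fermat.Agent.S26.Quad
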