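/-
S26 / endgame P, block QUAD, leaf Q-TOP (chief helper86, proof helper273): `QuadNode` from the twelve nodes.
-/
import Fermat.Agent.S26.Quad.Nodes

set_option autoImplicit false

universe u

open CategoryTheory CategoryTheory.Limits AlgebraicGeometry NeronModelInfra GoodReductionJacobian

namespace Fermat.Agent.S26.Quad

variable {K : Type u} [Field K]

/-! ### arithmetic -/

/-- a function satisfying the cube relation is "quadratic after symmetrisation". -/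
theorem quadTop_arith (d : ℤ → ℕ) (h0 : d 0 = 0)
    (h : ∀ m₁ m₂ m₃ : ℤ, d 0 + d (m₁ + m₂) + d (m₁ + m₃) + d (m₂ + m₃) =
      d m₁ + d m₂ + d m₃ + d (m₁ + m₂ + m₃)) (N : ℕ) :
    d N + d (-N) = N ^ 2 * (d 1 + d (-1)) := by
  have h1 : ∀ m : ℤ, d (m + 1) + d (m - 1) = 2 * d m + d 1 + d (-1) := by
    intro m
    have h2 := h m 1 (-1)
    have e1 : m + -1 = m - 1 := by ring
    have e2 : (1 : ℤ) + -1 = 0 := by ring
    have e3 : m + 1 + -1 = m := by ring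
    rw [e1, e2, e3, h0] at h2
    omega
  have key : ∀ n : ℕ, d n + d (-n) = n ^ 2 * (d 1 + d (-1)) ∧
      d ((n : ℤ) + 1) + d (-((n : ℤ) + 1)) = (n + 1) ^ 2 * (d 1 + d (-1)) := by
    intro n
    induction n with
    | zero =>
      refine ⟨by simp [h0], by simp⟩
    | succ n ih =>
      obtain ⟨ih1, ih2⟩ := ih
      refine ⟨by push_cast; exact ih2, ?_⟩
      have a1 := h1 ((n : ℤ) + 1)
      have a2 := h1 (-((n : ℤ) + 1))
      have e1 : (n : ℤ) + 1 - 1 = n := by ring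
      have e2 : -((n : ℤ) + 1) + 1 = -n := by ring
      have e3 : -((n : ℤ) + 1) - 1 = -((n : ℤ) + 1 + 1) := by ring
      rw [e1] at a1
      rw [e2, e3] at a2
      push_cast
      have e4 : (n + 1 + 1) ^ 2 * (d 1 + d (-1)) + n ^ 2 * (d 1 + d (-1)) =
          2 * ((n + 1) ^ 2 * (d 1 + d (-1))) + 2 * (d 1 + d (-1)) := by ring
      omega
  exact (key N).1

/-! ### reduction to the image -/

/-- the tower law, when the composite is known to be dominant of positive degree. -/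
theorem quadTop_tower (hT : TowerNode.{u}) {X Y Z : Scheme.{u}} [IsIntegral X] [IsIntegral Y]
    [IsIntegral Z] (ψ : Z ⟶ Y) (φ : Y ⟶ X) (χ : Z ⟶ X) (hχ : χ = ψ ≫ φ) (hψ : Dom ψ)
    (hdom : Dom χ) (hpos : 0 < gdeg χ) : gdeg χ = gdeg ψ * gdeg φ ∧ 0 < gdeg φ := by
  subst hχ
  have hdom' : Dom φ := by
    unfold Dom at hdom hψ ⊢
    rw [Scheme.Hom.comp_apply, hψ] at hdom
    exact hdom
  have h1 := hT ψ φ hψ hdom'
  refine ⟨h1, ?_⟩
  rw [h1] at hpos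
  exact Nat.pos_of_mul_pos_left hpos

/-- the degrees for `B` are the degrees for `B'` times `gdeg ψ`. -/
theorem quadTop_deg_eq {𝔸 : AbVar K} (hT : TowerNode.{u}) (hE : EtalePosNode.{u}) (C : Curve 𝔸)
    (B B' : Based 𝔸) (ψ : (C.cons 0 B).W ⟶ (C.cons 0 B').W) (hψ : Dom ψ) (m : ℤ)
    (hm : (C.cons m B).τ.hom = ψ ≫ (C.cons m B').τ.hom) (hg : (C.cons m B).Good) :
    (C.cons m B).deg = gdeg ψ * (C.cons m B').deg ∧ 0 < (C.cons m B').deg := by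
  obtain ⟨hdom, hpos⟩ := hE (C.cons m B).τ.hom (C.cons m B).pt₀ hg
  exact quadTop_tower hT ψ (C.cons m B').τ.hom (C.cons m B).τ.hom hm hψ hdom hpos

/-! ### the translated curves -/

/-- `a - k ι(x₀) = a`. -/
theorem quadTop_comp_tr {𝔸 : AbVar K} (C : Curve 𝔸) (a : 𝔸.KPt) (k : ℤ) :
    AbVar.Pt.comp C.ε.1 C.ε.2 (C.tr a k) = a := by
  have h1 : AbVar.Pt.comp C.ε.1 C.ε.2 (AbVar.Pt.comp C.c (Category.comp_id _) a) = a := by
    apply AbVar.Pt.ext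
    rw [AbVar.Pt.comp_hom, AbVar.Pt.comp_hom, ← Category.assoc, C.ε.2, Category.id_comp]
  unfold Curve.tr
  rw [map_mul, map_zpow, C.ι_ε, one_zpow, mul_one, h1]

theorem quadTop_tr_x₀ {𝔸 : AbVar K} (C : Curve 𝔸) (a : 𝔸.KPt) (k : ℤ) :
    (C.tr a k).hom C.x₀ = a.hom (cpt K) := by
  have h := congrArg (fun x : 𝔸.KPt => x.hom (cpt K)) (quadTop_comp_tr C a k)
  simp only [AbVar.Pt.comp_hom, Scheme.Hom.comp_apply] at h
  exact h

/-- finitely many nonempty opens of an irreducible space meet. -/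
theorem quadTop_inter {X : Scheme.{u}} [IsIntegral X] (U V : X.Opens) (hU : (U : Set X).Nonempty)
    (hV : (V : Set X).Nonempty) : ((U ⊓ V : X.Opens) : Set X).Nonempty :=
  nonempty_preirreducible_inter U.2 V.2 hU hV

/-! ### the case of a closed immersion -/

theorem quadTop_closed (𝔸 : AbVar K) (hF : FibreNode K) (hD : DenseNode K) (hFI : FibIsoNode 𝔸)
    (hCa : CartNode 𝔸) (hP : PullNode.{u}) (hEm : EmptyNode 𝔸) (hCu : CubeNode 𝔸)
    (hDg : DegNode 𝔸) (C : Curve 𝔸) (B : Based 𝔸) (hcl : IsClosedImmersion B.τ.hom) (N : ℕ)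
    (h1 : 0 < (C.cons 1 B).deg) (h2 : 0 < (C.cons (-1) B).deg) (h3 : 0 < (C.cons N B).deg)
    (h4 : 0 < (C.cons (-N) B).deg) :
    (C.cons N B).deg + (C.cons (-N) B).deg =
      N ^ 2 * ((C.cons 1 B).deg + (C.cons (-1) B).deg) := by
  obtain ⟨D, hcuts, V, hVne, hV⟩ := hCa C B hcl h1
  have hprop : ∀ m : ℤ, IsProper (C.cons m B).τ.hom := fun m => by
    have : IsProper ((C.cons m B).τ.hom ≫ 𝔸.f) := by
      rw [(C.cons m B).τ.hom_f]
      infer_instance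
    exact IsProper.of_comp _ 𝔸.f
  have hfib : ∀ m : ℤ, 0 < (C.cons m B).deg → ∃ U : 𝔸.A.Opens, (U : Set 𝔸.A).Nonempty ∧
      ∀ a : SK K ⟶ 𝔸.A, a (cpt K) ∈ U → fibDim (C.cons m B).τ.hom a = (C.cons m B).deg :=
    fun m hm => by
      have := hprop m
      exact hF 𝔸.f (C.cons m B).τ.hom hm
  obtain ⟨U1, hU1, hf1⟩ := hfib 1 h1
  obtain ⟨U2, hU2, hf2⟩ := hfib (-1) h2
  obtain ⟨U3, hU3, hf3⟩ := hfib N h3
  obtain ⟨U4, hU4, hf4⟩ := hfib (-N) h4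
  obtain ⟨a, ha, haU⟩ := hD 𝔸.f (V ⊓ (U1 ⊓ (U2 ⊓ (U3 ⊓ U4))))
    (quadTop_inter _ _ hVne (quadTop_inter _ _ hU1 (quadTop_inter _ _ hU2
      (quadTop_inter _ _ hU3 hU4))))
  obtain ⟨a', ha'⟩ : ∃ a' : 𝔸.KPt, a'.hom = a := ⟨AbVar.Pt.mk a ha, rfl⟩
  subst ha'
  have hunit : IsUnit (D.θ (a'.hom (cpt K))) := hV _ haU.1
  have hpull : ∀ k : ℤ, ∃ E : ECD C.Γ, ECD.IsPull (C.tr a' k).hom D E := fun k =>
    hP (C.tr a' k).hom D C.x₀ (by rw [quadTop_tr_x₀]; exact hunit)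
  choose E hE using hpull
  have hd0 : dpull C B.τ.hom (C.tr a' 0) = 0 := hEm C D B.τ.hom hcuts a' hunit
  have hcube : ∀ m₁ m₂ m₃ : ℤ,
      dpull C B.τ.hom (C.tr a' 0) + dpull C B.τ.hom (C.tr a' (m₁ + m₂)) +
        dpull C B.τ.hom (C.tr a' (m₁ + m₃)) + dpull C B.τ.hom (C.tr a' (m₂ + m₃)) =
      dpull C B.τ.hom (C.tr a' m₁) + dpull C B.τ.hom (C.tr a' m₂) +
        dpull C B.τ.hom (C.tr a' m₃) + dpull C B.τ.hom (C.tr a' (m₁ + m₂ + m₃)) := by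
    intro m₁ m₂ m₃
    have h := hDg C D B.τ.hom hcuts
      ([0, m₁ + m₂, m₁ + m₃, m₂ + m₃].map fun k => ⟨C.tr a' k, E k, hE k⟩)
      ([m₁, m₂, m₃, m₁ + m₂ + m₃].map fun k => ⟨C.tr a' k, E k, hE k⟩)
      (hCu C D a' E hE m₁ m₂ m₃)
    simp only [List.map_cons, List.map_nil, List.sum_cons, List.sum_nil] at h
    omega
  have harith := quadTop_arith (fun k => dpull C B.τ.hom (C.tr a' k)) hd0 hcube N
  rw [← hf1 _ haU.2.1, ← hf2 _ haU.2.2.1, ← hf3 _ haU.2.2.2.1, ← hf4 _ haU.2.2.2.2,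
    hFI, hFI, hFI, hFI]
  exact harith

/-! ### the node -/

/-- Q-TOP (final file `Quad/Top.lean`) -/
theorem quadNode_of_nodes (𝔸 : AbVar K) (hT : TowerNode.{u}) (hF : FibreNode K) (hD : DenseNode K)
    (hE : EtalePosNode.{u}) (hI : ImageNode 𝔸) (hCM : ConsMapNode 𝔸) (hFI : FibIsoNode 𝔸)
    (hCa : CartNode 𝔸) (hP : PullNode.{u}) (hEm : EmptyNode 𝔸) (hCu : CubeNode 𝔸)
    (hDg : DegNode 𝔸) : QuadNode 𝔸 := by
  intro C B N hN hgood
  obtain ⟨B', π, hcl, hw, hτ, hsurj⟩ := hI B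
  obtain ⟨ψ, hψ, hcomp⟩ := hCM C B B' π hw hτ hsurj
  have hN1 : (((N : ℕ) : ℤ) : K) ≠ 0 := by rw [Int.cast_natCast]; exact hN
  have hN2 : ((-((N : ℕ) : ℤ) : ℤ) : K) ≠ 0 := by
    rw [Int.cast_neg, Int.cast_natCast]; exact neg_ne_zero.2 hN
  have h11 : ((1 : ℤ) : K) ≠ 0 := by rw [Int.cast_one]; exact one_ne_zero
  have h12 : ((-1 : ℤ) : K) ≠ 0 := by
    rw [Int.cast_neg, Int.cast_one]; exact neg_ne_zero.2 one_ne_zero
  obtain ⟨e1, p1⟩ := quadTop_deg_eq hT hE C B B' ψ hψ 1 (hcomp 1) (hgood 1 h11)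
  obtain ⟨e2, p2⟩ := quadTop_deg_eq hT hE C B B' ψ hψ (-1) (hcomp (-1)) (hgood (-1) h12)
  obtain ⟨e3, p3⟩ := quadTop_deg_eq hT hE C B B' ψ hψ N (hcomp N) (hgood N hN1)
  obtain ⟨e4, p4⟩ := quadTop_deg_eq hT hE C B B' ψ hψ (-N) (hcomp (-N)) (hgood (-N) hN2)
  have h := quadTop_closed 𝔸 hF hD hFI hCa hP hEm hCu hDg C B' hcl N p1 p2 p3 p4
  rw [e1, e2, e3, e4, ← mul_add, h, ← mul_add]
  ring

end Fermat.Agent.S26.Quad
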